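import Mathlib
import Fermat.Agent.S29.ES
import Fermat.Agent.S29.GalHeckeTors
import Fermat.Agent.S29.EigLat
import Fermat.Agent.S30.CycAdic

/-!
# S31, the `J`-side: Dickson polynomials of Hecke operators on `J₀(N)[p^n]`

* `FA_S31_TC_dickson_abs` : if `T = u + ℓ u⁻¹` on a subgroup `X` stable under `u, u⁻¹`, then
  `D_b(ℓ)(T) = u^b + ℓ^b u^{-b}` on `X` (`D_b(ℓ) = dickson 1 ℓ b`);
* `FA_S31_TC_dickson` : for a Frobenius element `τ` at `ℓ ∤ N p` and `x ∈ J₀(N)[p^n]`: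
  `D_b(ℓ)(T_ℓ) x = τ^b x + ℓ^b τ^{-b} x`;
* `FA_S31_TC_cyc` : if `τ^b = τ'^b'` on `μ_{p^n}` then `p^n ∣ ℓ^b - ℓ'^b'`;
* `FA_S31_TC_compare` : if moreover `τ^b = τ'^b'` on `J₀(N)[p^n]`, then
  `D_b(ℓ)(T_ℓ) = D_b'(ℓ')(T_ℓ')` on `J₀(N)[p^n]`;
* `FA_S31_TC_aeval_equiv`, `FA_S31_TC_C1` : transport to `H = parabolicHoms ℤ Γ₀(N) ℤ` along
  an equivariant map `Θ` with `ker Θ ⊆ p^n H`.
-/

set_option autoImplicit false
set_option linter.style.haveILetI false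
set_option linter.unusedSectionVars false
set_option linter.unusedVariables false

noncomputable section

open Polynomial ModularCurve ModularCurve.Period CongruenceSubgroup AlgebraicCurve

namespace Fermat.Agent.S31

open Fermat.Agent.S29 Fermat.Agent.S30

section abs

variable {A : Type*} [AddCommGroup A]

/-- **Dickson polynomials of `u + ℓ u⁻¹`.** -/
theorem FA_S31_TC_dickson_abs (T : Module.End ℤ A) (u v : A → A) (ℓ : ℤ) (X : AddSubgroup A)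
    (huX : ∀ x ∈ X, u x ∈ X) (hvX : ∀ x ∈ X, v x ∈ X)
    (huv : ∀ x ∈ X, u (v x) = x) (hvu : ∀ x ∈ X, v (u x) = x)
    (hT : ∀ x ∈ X, T x = u x + ℓ • v x) (b : ℕ) :
    ∀ x ∈ X, aeval T (dickson 1 ℓ b) x = u^[b] x + ℓ ^ b • v^[b] x := by
  have huX' : ∀ (k : ℕ), ∀ x ∈ X, u^[k] x ∈ X := by
    intro k
    induction k with
    | zero => intro x hx; exact hx
    | succ k ih => intro x hx; rw [Function.iterate_succ_apply']; exact huX _ (ih x hx)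
  have hvX' : ∀ (k : ℕ), ∀ x ∈ X, v^[k] x ∈ X := by
    intro k
    induction k with
    | zero => intro x hx; exact hx
    | succ k ih => intro x hx; rw [Function.iterate_succ_apply']; exact hvX _ (ih x hx)
  have key : ∀ b : ℕ, (∀ x ∈ X, aeval T (dickson 1 ℓ b) x = u^[b] x + ℓ ^ b • v^[b] x) ∧
      (∀ x ∈ X, aeval T (dickson 1 ℓ (b + 1)) x = u^[b + 1] x + ℓ ^ (b + 1) • v^[b + 1] x) := by
    intro b
    induction b with
    | zero =>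
      refine ⟨fun x hx => ?_, fun x hx => ?_⟩
      · rw [dickson_zero]
        simp only [Function.iterate_zero, id_eq, pow_zero, one_smul]
        have : (3 - (1 : ℤ[X])) = C (2 : ℤ) := by
          rw [show (3 : ℤ[X]) = C (3 : ℤ) from rfl, show (1 : ℤ[X]) = C (1 : ℤ) from rfl,
            ← C_sub]
          norm_num
        have h3 : ((3 : ℤ[X]) - ((1 : ℕ) : ℤ[X])) = C (2 : ℤ) := by
          rw [Nat.cast_one]; exact this
        rw [h3, aeval_C]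
        show (algebraMap ℤ (Module.End ℤ A) 2) x = x + x
        rw [Module.algebraMap_end_apply, two_smul]
      · rw [dickson_one, aeval_X, zero_add, Function.iterate_one, Function.iterate_one, pow_one]
        exact hT x hx
    | succ b ih =>
      obtain ⟨ih0, ih1⟩ := ih
      refine ⟨ih1, fun x hx => ?_⟩
      rw [dickson_add_two, map_sub, map_mul, map_mul, aeval_X, aeval_C]
      show T (aeval T (dickson 1 ℓ (b + 1)) x)
        - (algebraMap ℤ (Module.End ℤ A) ℓ) (aeval T (dickson 1 ℓ b) x) = _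
      rw [ih1 x hx, ih0 x hx, Module.algebraMap_end_apply, map_add, map_zsmul,
        hT _ (huX' (b + 1) x hx), hT _ (hvX' (b + 1) x hx)]
      have e1 : v (u^[b + 1] x) = u^[b] x := by
        rw [Function.iterate_succ_apply']
        exact hvu _ (huX' b x hx)
      have e2 : u (v^[b + 1] x) = v^[b] x := by
        rw [Function.iterate_succ_apply']
        exact huv _ (hvX' b x hx)
      have e3 : u (u^[b + 1] x) = u^[b + 1 + 1] x := by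
        rw [Function.iterate_succ_apply' u (b + 1)]
      have e4 : v (v^[b + 1] x) = v^[b + 1 + 1] x := by
        rw [Function.iterate_succ_apply' v (b + 1)]
      rw [e1, e2, e3, e4]
      simp only [smul_add, smul_smul, pow_succ]
      have : ℓ ^ b * ℓ * ℓ = ℓ * (ℓ ^ b * ℓ) := by ring
      rw [mul_comm ℓ (ℓ ^ b), this]
      abel
  exact (key b).1

end abs

section concrete

variable (N : ℕ) [NeZero N]

/-- the `m`-torsion subgroup of `J₀(N)` -/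
def FA_S31_TC_tors (m : ℕ) : AddSubgroup (JZero N) where
  carrier := {x | m • x = 0}
  zero_mem' := smul_zero m
  add_mem' := fun {x y} hx hy => by
    show m • (x + y) = 0
    rw [nsmul_add, show m • x = 0 from hx, show m • y = 0 from hy, add_zero]
  neg_mem' := fun {x} hx => by
    show m • (-x) = 0
    rw [neg_nsmul, show m • x = 0 from hx, neg_zero]

theorem FA_S31_TC_mem_tors (m : ℕ) (x : JZero N) : x ∈ FA_S31_TC_tors N m ↔ m • x = 0 := Iff.rfl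

/-- **(D)** For a Frobenius element `τ` at `ℓ ∤ N` and `x` killed by `m` prime to `ℓ`:
`D_b(ℓ)(T_ℓ) x = τ^b x + ℓ^b τ^{-b} x`. -/
theorem FA_S31_TC_dickson {ℓ : ℕ} (hℓ : ℓ.Prime) (hℓN : ¬ ℓ ∣ N)
    (A : ValuationSubring (AlgebraicClosure ℚ)) (hA : A.LiesOverPrime ℓ)
    (τ : AlgebraicClosure ℚ ≃ₐ[ℚ] AlgebraicClosure ℚ) (hτ : A.IsFrobeniusAt τ ℓ)
    (m : ℕ) (hℓm : ¬ ℓ ∣ m) (b : ℕ) (x : JZero N) (hx : m • x = 0) :
    aeval (heckeOperatorBar N ⟨ℓ, hℓ⟩) (dickson 1 (ℓ : ℤ) b) x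
      = τ ^ b • x + (ℓ : ℤ) ^ b • (τ⁻¹) ^ b • x := by
  have h := FA_S31_TC_dickson_abs (heckeOperatorBar N ⟨ℓ, hℓ⟩)
    (fun y : JZero N => τ • y) (fun y : JZero N => τ⁻¹ • y) (ℓ : ℤ) (FA_S31_TC_tors N m)
    (fun y hy => FA_S29_ES_nsmul_smul N τ m y hy)
    (fun y hy => FA_S29_ES_nsmul_smul N τ⁻¹ m y hy)
    (fun y _ => smul_inv_smul τ y) (fun y _ => inv_smul_smul τ y)
    (fun y hy => by
      have hy' : m • (τ⁻¹ • y) = 0 := FA_S29_ES_nsmul_smul N τ⁻¹ m y hy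
      have hES := FA_S29_ES_frob N hℓ hℓN A hA τ hτ m hℓm (τ⁻¹ • y) hy'
      rw [smul_inv_smul] at hES
      show heckeOperatorBar N ⟨ℓ, hℓ⟩ y = τ • y + (ℓ : ℤ) • τ⁻¹ • y
      rw [natCast_zsmul]
      have : heckeOperatorBar N ⟨ℓ, hℓ⟩ y
          = τ • y + ℓ • τ⁻¹ • y - (τ • y - heckeOperatorBar N ⟨ℓ, hℓ⟩ y + ℓ • τ⁻¹ • y) := by
        abel
      rw [this, hES, sub_zero])
    b x hx
  rw [h, smul_iterate, smul_iterate]

/-- **Cyclotomic comparison**: if `τ^b` and `τ'^b'` agree on `μ_{p^n}` then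
`p^n ∣ ℓ^b - ℓ'^b'`. -/
theorem FA_S31_TC_cyc (p : ℕ) [hp : Fact p.Prime] (n : ℕ) {ℓ ℓ' : ℕ} (hℓ : ℓ.Prime)
    (hℓ' : ℓ'.Prime) (hℓp : ℓ ≠ p) (hℓ'p : ℓ' ≠ p)
    (A A' : ValuationSubring (AlgebraicClosure ℚ)) (hA : A.LiesOverPrime ℓ)
    (hA' : A'.LiesOverPrime ℓ')
    (τ τ' : AlgebraicClosure ℚ ≃ₐ[ℚ] AlgebraicClosure ℚ) (hτ : A.IsFrobeniusAt τ ℓ)
    (hτ' : A'.IsFrobeniusAt τ' ℓ') (b b' : ℕ)
    (h : ∀ ζ : AlgebraicClosure ℚ, ζ ^ p ^ n = 1 → (τ ^ b) ζ = (τ' ^ b') ζ) :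
    ((p : ℤ) ^ n) ∣ (ℓ : ℤ) ^ b - (ℓ' : ℤ) ^ b' := by
  have h1 := FA_S30_CY_chi_congr p (τ ^ b) (τ' ^ b') n h
  rw [map_pow, map_pow, Units.val_pow_eq_pow_val, Units.val_pow_eq_pow_val,
    FA_S30_CY_chi_frob p hℓ hℓp A hA τ hτ, FA_S30_CY_chi_frob p hℓ' hℓ'p A' hA' τ' hτ'] at h1
  have h2 : (((ℓ : ℤ) ^ b - (ℓ' : ℤ) ^ b' : ℤ) : ℤ_[p]) ∈ Ideal.span {(p : ℤ_[p]) ^ n} := by
    push_cast
    exact h1
  rw [← PadicInt.norm_le_pow_iff_mem_span_pow, PadicInt.norm_int_le_pow_iff_dvd] at h2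
  exact_mod_cast h2

/-- **(D), comparison.**  If `τ^b` and `τ'^b'` agree on `J₀(N)[m]`, `m ∣ ℓ^b - ℓ'^b'`, then
`D_b(ℓ)(T_ℓ) = D_b'(ℓ')(T_ℓ')` on `J₀(N)[m]`. -/
theorem FA_S31_TC_compare {ℓ ℓ' : ℕ} (hℓ : ℓ.Prime) (hℓ' : ℓ'.Prime) (hℓN : ¬ ℓ ∣ N)
    (hℓ'N : ¬ ℓ' ∣ N)
    (A A' : ValuationSubring (AlgebraicClosure ℚ)) (hA : A.LiesOverPrime ℓ)
    (hA' : A'.LiesOverPrime ℓ')
    (τ τ' : AlgebraicClosure ℚ ≃ₐ[ℚ] AlgebraicClosure ℚ) (hτ : A.IsFrobeniusAt τ ℓ)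
    (hτ' : A'.IsFrobeniusAt τ' ℓ') (m : ℕ) (hℓm : ¬ ℓ ∣ m) (hℓ'm : ¬ ℓ' ∣ m) (b b' : ℕ)
    (hJ : ∀ x : JZero N, m • x = 0 → τ ^ b • x = τ' ^ b' • x)
    (hcyc : (m : ℤ) ∣ (ℓ : ℤ) ^ b - (ℓ' : ℤ) ^ b')
    (x : JZero N) (hx : m • x = 0) :
    aeval (heckeOperatorBar N ⟨ℓ, hℓ⟩) (dickson 1 (ℓ : ℤ) b) x
      = aeval (heckeOperatorBar N ⟨ℓ', hℓ'⟩) (dickson 1 (ℓ' : ℤ) b') x := by
  rw [FA_S31_TC_dickson N hℓ hℓN A hA τ hτ m hℓm b x hx,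
    FA_S31_TC_dickson N hℓ' hℓ'N A' hA' τ' hτ' m hℓ'm b' x hx, hJ x hx]
  -- the inverses agree on the torsion
  have hinv : (τ⁻¹) ^ b • x = (τ'⁻¹) ^ b' • x := by
    have hy : m • ((τ'⁻¹) ^ b' • x) = 0 := FA_S29_ES_nsmul_smul N _ m x hx
    have h1 := hJ _ hy
    rw [inv_pow τ' b', smul_inv_smul] at h1
    rw [inv_pow, inv_pow, inv_smul_eq_iff]
    exact h1.symm
  rw [hinv]
  congr 1
  -- `(ℓ^b - ℓ'^b') • y = 0` on the torsion
  have hy : m • ((τ'⁻¹) ^ b' • x) = 0 := FA_S29_ES_nsmul_smul N _ m x hx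
  obtain ⟨c, hc⟩ := hcyc
  have h0 : ((ℓ : ℤ) ^ b - (ℓ' : ℤ) ^ b') • ((τ'⁻¹) ^ b' • x) = 0 := by
    rw [hc, mul_comm, mul_smul, natCast_zsmul, hy, smul_zero]
  rw [sub_smul, sub_eq_zero] at h0
  exact h0

end concrete

end Fermat.Agent.S31

end
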