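import Mathlib

/-!
# S31, leaf (B): traces of powers of a `2 × 2` endomorphism are Dickson polynomials

* `FA_S31_TR_trace_det` : `charpoly f = X² - a X + δ` on a free module of rank 2 gives
  `trace f = a` and the Cayley–Hamilton relation `f * f = a • f - δ • 1`;
* `FA_S31_TR_trace_pow` : then `trace (f ^ b) = (dickson 1 δ b).eval a`;
* `FA_S31_TR_trace_pow_int` : the same with `δ = (ℓ : ℤ)`, the polynomial over `ℤ`;
* `FA_S31_TR_trace_mem` : the trace of an endomorphism with image in `I • ⊤` lies in `I`.
-/

set_option autoImplicit false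
set_option linter.unusedSectionVars false
set_option linter.unusedVariables false
set_option linter.style.haveILetI false

noncomputable section

namespace Fermat.Agent.S31

open Polynomial

variable {T : Type*} [CommRing T] [Nontrivial T] {V : Type*} [AddCommGroup V] [Module T V]
  [Module.Free T V] [Module.Finite T V]

/-- Trace and Cayley–Hamilton from the characteristic polynomial in rank 2. -/
theorem FA_S31_TR_trace_det (hV : Module.finrank T V = 2) (f : Module.End T V) (a δ : T)
    (h : LinearMap.charpoly f = X ^ 2 - C a * X + C δ) :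
    LinearMap.trace T V f = a ∧ f * f = a • f - δ • (1 : Module.End T V) := by
  classical
  let b : Module.Basis (Fin 2) T V := Module.finBasisOfFinrankEq T V hV
  constructor
  · rw [LinearMap.trace_eq_matrix_trace T b, ← LinearMap.charpoly_toMatrix f b,
      Matrix.charpoly_fin_two] at *
    have h1 := congrArg (fun p => p.coeff 1) h
    simp only [coeff_add, coeff_sub, coeff_X_pow, coeff_C_mul, coeff_X_one, coeff_C] at h1
    norm_num at h1
    exact h1
  · have hCH := LinearMap.aeval_self_charpoly f
    rw [h] at hCH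
    simp only [map_add, map_sub, map_mul, map_pow, aeval_X, aeval_C,
      Algebra.algebraMap_eq_smul_one] at hCH
    rw [sub_add_eq_add_sub, sub_eq_zero] at hCH
    rw [pow_two] at hCH
    rw [smul_mul_assoc, one_mul] at hCH
    rw [← hCH]; abel

/-- **Leaf (B).** Traces of powers are Dickson polynomials. -/
theorem FA_S31_TR_trace_pow (hV : Module.finrank T V = 2) (f : Module.End T V) (a δ : T)
    (h : LinearMap.charpoly f = X ^ 2 - C a * X + C δ) (b : ℕ) :
    LinearMap.trace T V (f ^ b) = (dickson 1 δ b).eval a := by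
  obtain ⟨htr, hCH⟩ := FA_S31_TR_trace_det hV f a δ h
  suffices H : ∀ b : ℕ, LinearMap.trace T V (f ^ b) = (dickson 1 δ b).eval a ∧
      LinearMap.trace T V (f ^ (b + 1)) = (dickson 1 δ (b + 1)).eval a from (H b).1
  intro b
  induction b with
  | zero =>
    refine ⟨?_, ?_⟩
    · rw [pow_zero, LinearMap.trace_one, hV, dickson_zero]
      simp
      norm_num
    · rw [zero_add, pow_one, htr, dickson_one, eval_X]
  | succ b ih =>
    obtain ⟨h0, h1⟩ := ih
    refine ⟨h1, ?_⟩
    have e : f ^ (b + 1 + 1) = a • f ^ (b + 1) - δ • f ^ b := by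
      have : f ^ (b + 1 + 1) = f ^ b * (f * f) := by
        rw [pow_succ, pow_succ, mul_assoc]
      rw [this, hCH, mul_sub, mul_smul_comm, mul_smul_comm, mul_one, ← pow_succ]
    rw [e, map_sub, map_smul, map_smul, h0, h1, dickson_add_two]
    simp only [eval_sub, eval_mul, eval_X, eval_C, smul_eq_mul]

/-- The same with an integer parameter and the Dickson polynomial over `ℤ`. -/
theorem FA_S31_TR_trace_pow_int (hV : Module.finrank T V = 2) (f : Module.End T V) (a : T)
    (ℓ : ℤ) (h : LinearMap.charpoly f = X ^ 2 - C a * X + C (ℓ : T)) (b : ℕ) :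
    LinearMap.trace T V (f ^ b) = aeval a (dickson 1 ℓ b) := by
  rw [FA_S31_TR_trace_pow hV f a (ℓ : T) h b]
  have h1 : dickson 1 (ℓ : T) b = (dickson 1 ℓ b).map (Int.castRingHom T) := by
    rw [map_dickson]; simp
  rw [h1, eval_map, aeval_def]
  rfl

omit [Nontrivial T] in
/-- A linear functional maps `I • ⊤` into `I`. -/
theorem FA_S31_TR_functional_mem (I : Ideal T) (φ : V →ₗ[T] T) {v : V}
    (hv : v ∈ I • (⊤ : Submodule T V)) : φ v ∈ I := by
  have h1 : φ v ∈ (I • (⊤ : Submodule T V)).map φ := Submodule.mem_map_of_mem hv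
  rw [Submodule.map_smul''] at h1
  have h2 : I • (Submodule.map φ ⊤) ≤ I • (⊤ : Submodule T T) :=
    Submodule.smul_mono le_rfl le_top
  have h3 := h2 h1
  rwa [Ideal.smul_eq_mul, Ideal.mul_top] at h3

/-- The trace of an endomorphism with image in `I • ⊤` lies in `I`. -/
theorem FA_S31_TR_trace_mem (I : Ideal T) (f : Module.End T V)
    (hf : ∀ v, f v ∈ I • (⊤ : Submodule T V)) : LinearMap.trace T V f ∈ I := by
  classical
  let b := Module.Free.chooseBasis T V
  rw [LinearMap.trace_eq_matrix_trace T b]
  simp only [Matrix.trace, Matrix.diag_apply]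
  refine Ideal.sum_mem _ fun i _ => ?_
  rw [LinearMap.toMatrix_apply]
  exact FA_S31_TR_functional_mem I (b.coord i) (hf (b i))

/-- Congruent endomorphisms have congruent traces. -/
theorem FA_S31_TR_trace_sub_mem (I : Ideal T) (f g : Module.End T V)
    (hf : ∀ v, f v - g v ∈ I • (⊤ : Submodule T V)) :
    LinearMap.trace T V f - LinearMap.trace T V g ∈ I := by
  rw [← map_sub]
  exact FA_S31_TR_trace_mem I (f - g) (fun v => by simpa using hf v)

end Fermat.Agent.S31
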