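import Mathlib
import Fermat.Prelude.Def_GaloisRep_Adic
import Fermat.Agent.S53.Burnside

/-!
# S31, leaf (A): a residually absolutely irreducible representation is trivial on every `σ`
whose translation does not change the trace

`FA_S31_TU_main` : `T` local, `ρ : GaloisRepAdic T` with absolutely irreducible residual
representation, `σ` with `trace (ρ (σ * g)) = trace (ρ g)` for all `g`. Then `ρ σ = 1`.

(Burnside modulo `𝔪` + Nakayama: the `T`-span of the matrices of `ρ` is the full matrix algebra;
`X = ρ σ - 1` is orthogonal to it for the trace pairing, hence zero.)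
-/

set_option autoImplicit false
set_option linter.unusedSectionVars false
set_option linter.unusedVariables false
set_option linter.style.haveILetI false

noncomputable section

namespace Fermat.Agent.S31

open Matrix IsLocalRing
open scoped TensorProduct

section span

variable {T : Type} [CommRing T] [IsLocalRing T]

/-- A matrix with entries in `𝔪` lies in `𝔪 • ⊤`. -/
theorem FA_S31_TU_mem_smul_top (Z : Matrix (Fin 2) (Fin 2) T)
    (hZ : ∀ i j, Z i j ∈ maximalIdeal T) :
    Z ∈ maximalIdeal T • (⊤ : Submodule T (Matrix (Fin 2) (Fin 2) T)) := by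
  rw [Matrix.matrix_eq_sum_single Z]
  refine Submodule.sum_mem _ fun i _ => Submodule.sum_mem _ fun j _ => ?_
  have : Matrix.single i j (Z i j) = Z i j • Matrix.single i j (1 : T) := by
    rw [Matrix.smul_single, smul_eq_mul, mul_one]
  rw [this]
  exact Submodule.smul_mem_smul (hZ i j) Submodule.mem_top

/-- Nakayama for matrices: a family of matrices whose reductions span `M₂(k)` spans `M₂(T)`. -/
theorem FA_S31_TU_span_eq_top {ι : Type*} (M : ι → Matrix (Fin 2) (Fin 2) T)
    (h : Submodule.span (ResidueField T)
      (Set.range fun i => (M i).map (algebraMap T (ResidueField T))) = ⊤) :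
    Submodule.span T (Set.range M) = ⊤ := by
  rw [eq_top_iff]
  refine Submodule.le_of_le_smul_of_le_jacobson_bot (I := maximalIdeal T)
    (Module.Finite.fg_top) (IsLocalRing.maximalIdeal_le_jacobson _) ?_
  intro Y _
  have hY : Y.map (algebraMap T (ResidueField T)) ∈ Submodule.span (ResidueField T)
      (Set.range fun i => (M i).map (algebraMap T (ResidueField T))) := by
    rw [h]; trivial
  obtain ⟨c, hc⟩ := (Finsupp.mem_span_range_iff_exists_finsupp).mp hY
  -- lift the coefficients
  have hsurj : Function.Surjective (algebraMap T (ResidueField T)) :=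
    IsLocalRing.residue_surjective
  choose lift hlift using hsurj
  let Y' : Matrix (Fin 2) (Fin 2) T := c.sum fun i a => lift a • M i
  have hY' : Y' ∈ Submodule.span T (Set.range M) := by
    refine Submodule.sum_mem _ fun i _ => Submodule.smul_mem _ _ (Submodule.subset_span ⟨i, rfl⟩)
  have hred : ∀ r s, algebraMap T (ResidueField T) ((Y - Y') r s) = 0 := by
    intro r s
    have e1 : algebraMap T (ResidueField T) (Y' r s) =
        (c.sum fun i a => a • (M i).map (algebraMap T (ResidueField T))) r s := by
      simp only [Y', Finsupp.sum, Matrix.map_apply, Matrix.sum_apply, Matrix.smul_apply,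
        smul_eq_mul, map_sum, map_mul, hlift]
    have e3 := congrFun (congrFun hc r) s
    rw [Matrix.sub_apply, map_sub, e1, e3, Matrix.map_apply, sub_self]
  have hZ : ∀ i j, (Y - Y') i j ∈ maximalIdeal T := by
    intro i j
    exact (IsLocalRing.residue_eq_zero_iff _).mp (hred i j)
  have : Y = Y' + (Y - Y') := by abel
  rw [this]
  exact Submodule.add_mem_sup hY' (FA_S31_TU_mem_smul_top _ hZ)

/-- The trace pairing on `M₂(T)` is nondegenerate. -/
theorem FA_S31_TU_eq_zero_of_trace (X : Matrix (Fin 2) (Fin 2) T)
    (h : ∀ Y : Matrix (Fin 2) (Fin 2) T, Matrix.trace (X * Y) = 0) : X = 0 := by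
  ext i j
  have := h (Matrix.single j i 1)
  fin_cases i <;> fin_cases j <;>
    simpa [Matrix.trace, Matrix.mul_apply, Matrix.single_apply, Fin.sum_univ_two] using this

end span

section main

variable {T : Type} [CommRing T] [IsLocalRing T]

/-- **Leaf (A).** -/
theorem FA_S31_TU_main (ρ : GaloisRepAdic T) (habs : ρ.residual.IsAbsolutelyIrreducible)
    (σ : AlgebraicClosure ℚ ≃ₐ[ℚ] AlgebraicClosure ℚ)
    (h : ∀ g : AlgebraicClosure ℚ ≃ₐ[ℚ] AlgebraicClosure ℚ,
      LinearMap.trace T ρ.V (ρ.ρ (σ * g)) = LinearMap.trace T ρ.V (ρ.ρ g)) :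
    ρ.ρ σ = 1 := by
  classical
  let b : Module.Basis (Fin 2) T ρ.V := Module.finBasisOfFinrankEq T ρ.V ρ.finrank_eq
  let M : (AlgebraicClosure ℚ ≃ₐ[ℚ] AlgebraicClosure ℚ) → Matrix (Fin 2) (Fin 2) T :=
    fun g => LinearMap.toMatrix b b (ρ.ρ g)
  have hMmul : ∀ g g', M (g * g') = M g * M g' := by
    intro g g'
    simp only [M]
    rw [map_mul, Module.End.mul_eq_comp, LinearMap.toMatrix_comp b b b]
  -- Burnside
  let b' : Module.Basis (Fin 2) (ResidueField T) ρ.residual.V :=
    Algebra.TensorProduct.basis (ResidueField T) b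
  have hB := FA_S53_burnside ρ.residual habs b'
  have hred : ∀ g, LinearMap.toMatrix b' b' (ρ.residual.ρ g) =
      (M g).map (algebraMap T (ResidueField T)) := by
    intro g
    exact LinearMap.toMatrix_baseChange (ResidueField T) (ρ.ρ g) b b
  have hspan : Submodule.span T (Set.range M) = ⊤ := by
    apply FA_S31_TU_span_eq_top M
    rw [← hB]
    congr 1
    ext Y
    simp only [Set.mem_range, hred]
  -- the trace pairing
  have htr : ∀ Y : Matrix (Fin 2) (Fin 2) T, Matrix.trace ((M σ - 1) * Y) = 0 := by
    intro Y
    have hY : Y ∈ Submodule.span T (Set.range M) := by rw [hspan]; trivial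
    induction hY using Submodule.span_induction with
    | mem Y hY =>
      obtain ⟨g, rfl⟩ := hY
      rw [sub_mul, one_mul, Matrix.trace_sub, ← hMmul, sub_eq_zero]
      have := h g
      rw [LinearMap.trace_eq_matrix_trace T b, LinearMap.trace_eq_matrix_trace T b] at this
      exact this
    | zero => simp
    | add Y Y' _ _ hY hY' => rw [mul_add, Matrix.trace_add, hY, hY', add_zero]
    | smul a Y _ hY => rw [Matrix.mul_smul, Matrix.trace_smul, hY, smul_zero]
  have hX := FA_S31_TU_eq_zero_of_trace _ htr
  have h1 : M σ = 1 := sub_eq_zero.mp hX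
  apply (LinearMap.toMatrix b b).injective
  rw [show LinearMap.toMatrix b b (ρ.ρ σ) = M σ from rfl, h1, Module.End.one_eq_id,
    LinearMap.toMatrix_id]

end main

end Fermat.Agent.S31
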