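import Mathlib
import Fermat.Prelude.Def_CuspForm_HeckeGaloisRepDatum
import Fermat.Agent.S29.FrobMain
import Fermat.Agent.S30.TorsLevel
import Fermat.Agent.S31.TraceUnr
import Fermat.Agent.S31.TraceDickson
import Fermat.Agent.S31.TorsCmp

/-!
# S31, leaf (E): the assembly

`FA_S31_AS_main` : the statement of S31 from the Hecke-side comparison (C)
(`FA_S31_AS_HeckeSide`, helper7's `FA_S31_HC_main`).

For `σ` in the inertia group at `q ∉ S` and `g ∈ Gal(ℚ̄/ℚ)`, modulo `𝔪 ^ n`: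
`trace ρ(g) ≡ π (D_b(ℓ)(T_ℓ))`, `trace ρ(σ g) ≡ π (D_b'(ℓ')(T_ℓ'))` (Frobenius density, leaf (B)),
and the two Hecke operators agree on `J₀(N)[p ^ (n + c)]` (leaf (D)), hence are congruent
modulo `p ^ n` (leaf (C)). So `trace ρ(σ g) = trace ρ(g)`, and leaf (A) gives `ρ σ = 1`.
-/

set_option autoImplicit false
set_option linter.unusedSectionVars false
set_option linter.unusedVariables false
set_option linter.style.haveILetI false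

noncomputable section

namespace Fermat.Agent.S31

open Polynomial ModularCurve IsLocalRing

local notation "FAQb31" => AlgebraicClosure ℚ
local notation "FAΓ31" => (AlgebraicClosure ℚ ≃ₐ[ℚ] AlgebraicClosure ℚ)

/-- Two finite subextensions of `ℚ̄` lie in a common finite Galois one. -/
theorem FA_S31_AS_exists_galois (L₁ L₂ : IntermediateField ℚ (AlgebraicClosure ℚ))
    [FiniteDimensional ℚ L₁] [FiniteDimensional ℚ L₂] :
    ∃ L : IntermediateField ℚ (AlgebraicClosure ℚ), FiniteDimensional ℚ L ∧ IsGalois ℚ L ∧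
      L₁ ≤ L ∧ L₂ ≤ L := by
  haveI : FiniteDimensional ℚ ↥(L₁ ⊔ L₂) := IntermediateField.finiteDimensional_sup L₁ L₂
  refine ⟨IntermediateField.normalClosure ℚ ↥(L₁ ⊔ L₂) (AlgebraicClosure ℚ), inferInstance, ?_, ?_, ?_⟩
  · haveI : Algebra.IsAlgebraic ℚ (AlgebraicClosure ℚ) := AlgebraicClosure.isAlgebraic ℚ
    haveI : IsAlgClosure ℚ (AlgebraicClosure ℚ) := ⟨inferInstance, inferInstance⟩
    haveI : Normal ℚ (AlgebraicClosure ℚ) := IsAlgClosure.normal ℚ (AlgebraicClosure ℚ)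
    haveI : Normal ℚ ↥(IntermediateField.normalClosure ℚ ↥(L₁ ⊔ L₂) (AlgebraicClosure ℚ)) :=
      normalClosure.normal ℚ ↥(L₁ ⊔ L₂) (AlgebraicClosure ℚ)
    exact ⟨⟩
  · exact le_sup_left.trans (IntermediateField.le_normalClosure (L₁ ⊔ L₂))
  · exact le_sup_right.trans (IntermediateField.le_normalClosure (L₁ ⊔ L₂))

/-- A number field containing the `m`-th roots of unity. -/
theorem FA_S31_AS_level_mu (m : ℕ) (hm : 0 < m) :
    ∃ E : IntermediateField ℚ (AlgebraicClosure ℚ), FiniteDimensional ℚ E ∧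
      ∀ ζ : AlgebraicClosure ℚ, ζ ^ m = 1 → ζ ∈ E := by
  have hfin : {ζ : AlgebraicClosure ℚ | ζ ^ m = 1}.Finite := by
    have h := (Polynomial.X ^ m - 1 : Polynomial (AlgebraicClosure ℚ)).rootSet_finite
      (AlgebraicClosure ℚ)
    refine h.subset fun ζ hζ => ?_
    rw [Polynomial.mem_rootSet]
    refine ⟨Polynomial.X_pow_sub_C_ne_zero hm 1, ?_⟩
    simp only [map_sub, map_pow, Polynomial.aeval_X, map_one]
    change ζ ^ m = 1 at hζ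
    rw [hζ, sub_self]
  refine ⟨IntermediateField.adjoin ℚ {ζ : AlgebraicClosure ℚ | ζ ^ m = 1}, ?_, ?_⟩
  · haveI : Algebra.IsAlgebraic ℚ (AlgebraicClosure ℚ) := AlgebraicClosure.isAlgebraic ℚ
    haveI : Finite ↥{ζ : AlgebraicClosure ℚ | ζ ^ m = 1} := hfin.to_subtype
    exact IntermediateField.finiteDimensional_adjoin (fun x _ =>
      (Algebra.IsAlgebraic.isAlgebraic x).isIntegral)
  · intro ζ hζ
    exact IntermediateField.subset_adjoin ℚ _ hζ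

/-- The Hecke-side comparison, leaf (C), as a proposition. -/
def FA_S31_AS_HeckeSide (N : ℕ) [NeZero N] (S : Finset ℕ) (p : ℕ) : Prop :=
  ∃ c : ℕ, ∀ (n : ℕ) (ℓ ℓ' : ℕ) (hℓ : ℓ.Prime) (hℓN : ¬ ℓ ∣ N) (hℓS : ℓ ∉ (↑S : Set ℕ))
    (hℓ' : ℓ'.Prime) (hℓ'N : ¬ ℓ' ∣ N) (hℓ'S : ℓ' ∉ (↑S : Set ℕ)) (P P' : Polynomial ℤ),
    (∀ x : JZero N, p ^ (n + c) • x = 0 →
      aeval (heckeOperatorBar N ⟨ℓ, hℓ⟩) P x = aeval (heckeOperatorBar N ⟨ℓ', hℓ'⟩) P' x) →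
    ∃ t : CuspForm.heckeAlgebra N 2 (↑S : Set ℕ),
      aeval (CuspForm.heckeAlgebra.T hℓ hℓN hℓS) P -
        aeval (CuspForm.heckeAlgebra.T hℓ' hℓ'N hℓ'S) P' = ((p : ℤ) ^ n) • t

section main

variable {p : ℕ} {N : ℕ} [NeZero N] {S : Finset ℕ}
  {𝒪 : Type} [CommRing 𝒪] [IsDomain 𝒪] [IsDiscreteValuationRing 𝒪]
  [IsAdicComplete (IsLocalRing.maximalIdeal 𝒪) 𝒪]
  {θ : CuspForm.heckeAlgebra N 2 (↑S : Set ℕ) →+* IsLocalRing.ResidueField 𝒪}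
  {T : Type} [CommRing T] [IsLocalRing T] [IsNoetherianRing T]
  [IsAdicComplete (IsLocalRing.maximalIdeal T) T] [Algebra 𝒪 T] [IsLocalHom (algebraMap 𝒪 T)]
  [Module.Finite 𝒪 T] [Module.Free 𝒪 T]

/-- Congruence of `ρ g` and `ρ (τ ^ b)` when `g` and `τ ^ b` agree on the level field. -/
theorem FA_S31_AS_congr (ρ : GaloisRepAdic T) (n : ℕ)
    (L : IntermediateField ℚ (AlgebraicClosure ℚ))
    (h1 : ∀ σ : FAΓ31, (∀ x ∈ L, σ x = x) →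
      ∀ v : ρ.V, ρ.ρ σ v - v ∈ (maximalIdeal T ^ n) • (⊤ : Submodule T ρ.V))
    (g t : FAΓ31) (hg : ∀ x ∈ L, g x = t x) :
    LinearMap.trace T ρ.V (ρ.ρ g) - LinearMap.trace T ρ.V (ρ.ρ t) ∈ maximalIdeal T ^ n := by
  apply FA_S31_TR_trace_sub_mem
  intro v
  have hs : ∀ x ∈ L, (t⁻¹ * g) x = x := by
    intro x hx
    rw [AlgEquiv.mul_apply, hg x hx]
    exact t.symm_apply_apply x
  have e : ρ.ρ g v - ρ.ρ t v = ρ.ρ t (ρ.ρ (t⁻¹ * g) v - v) := by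
    rw [map_sub, ← Module.End.mul_apply, ← map_mul, mul_inv_cancel_left]
  rw [e]
  have h2 := h1 _ hs v
  have h3 : ρ.ρ t (ρ.ρ (t⁻¹ * g) v - v) ∈
      ((maximalIdeal T ^ n) • (⊤ : Submodule T ρ.V)).map (ρ.ρ t) := Submodule.mem_map_of_mem h2
  rw [Submodule.map_smul''] at h3
  exact Submodule.smul_mono le_rfl le_top h3

/-- **Leaf (E): S31 from the Hecke-side comparison (C).** -/
theorem FA_S31_AS_main (hp : p.Prime)
    (hp𝒪 : (p : 𝒪) ∈ IsLocalRing.maximalIdeal 𝒪) (hpS : p ∈ S)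
    (hNS : ∀ q : ℕ, q.Prime → q ∣ N → q ∈ S)
    (hC : FA_S31_AS_HeckeSide N S p)
    (H : CuspForm.HeckeGaloisRepDatum N (↑S : Set ℕ) 𝒪 θ T)
    (q : ℕ) (hq : q.Prime) (hqS : q ∉ S) :
    H.ρ.IsUnramifiedAt q := by
  haveI : Fact p.Prime := ⟨hp⟩
  intro P hP σ hσ
  apply FA_S31_TU_main H.ρ H.residual_absIrr σ
  intro g
  obtain ⟨c, hc⟩ := hC
  have hqN : ¬ q ∣ N := fun h => hqS (hNS q hq h)
  have hqp : q ≠ p := fun h => hqS (h ▸ hpS)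
  have hqNp : ¬ q ∣ N * p := by
    intro h
    rcases (Nat.Prime.dvd_mul hq).mp h with h | h
    · exact hqN h
    · exact hqp ((Nat.prime_dvd_prime_iff_eq hq hp).mp h)
  have hpT : (p : T) ∈ maximalIdeal T := by
    have h1 : (p : T) = algebraMap 𝒪 T (p : 𝒪) := (map_natCast (algebraMap 𝒪 T) p).symm
    rw [h1]
    exact map_nonunit (algebraMap 𝒪 T) _ hp𝒪
  -- the congruence modulo `𝔪 ^ n`
  have hK : ∀ n : ℕ, LinearMap.trace T H.ρ.V (H.ρ.ρ (σ * g)) -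
      LinearMap.trace T H.ρ.V (H.ρ.ρ g) ∈ maximalIdeal T ^ n := by
    intro n
    obtain ⟨L₁, hL₁, h1⟩ := H.ρ.isAdicContinuous n
    obtain ⟨L₂, hL₂, -, h2⟩ := Fermat.Agent.S30.FA_S30_TL_congr_pow N p hp.pos (n + c)
    obtain ⟨L₃, hL₃, h3⟩ := FA_S31_AS_level_mu (p ^ (n + c)) (pow_pos hp.pos _)
    haveI := hL₁; haveI := hL₂; haveI := hL₃
    obtain ⟨L₁₂, hL₁₂, -, hle1, hle2⟩ := FA_S31_AS_exists_galois L₁ L₂
    haveI := hL₁₂
    obtain ⟨L, hL, hLgal, hle12, hle3⟩ := FA_S31_AS_exists_galois L₁₂ L₃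
    haveI := hL; haveI := hLgal
    obtain ⟨ℓ, A, τ, b, hℓ, hℓS, hA, hτ, hg⟩ := Fermat.Agent.S29.FA_S29_FD_main L g S
    obtain ⟨ℓ', A', τ', b', hℓ', hℓ'S, hA', hτ', hg'⟩ :=
      Fermat.Agent.S29.FA_S29_FD_main L (σ * g) S
    have hℓN : ¬ ℓ ∣ N := fun h => hℓS (hNS ℓ hℓ h)
    have hℓ'N : ¬ ℓ' ∣ N := fun h => hℓ'S (hNS ℓ' hℓ' h)
    have hℓp : ℓ ≠ p := fun h => hℓS (h ▸ hpS)
    have hℓ'p : ℓ' ≠ p := fun h => hℓ'S (h ▸ hpS)
    have hℓm : ¬ ℓ ∣ p ^ (n + c) := fun h =>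
      hℓp ((Nat.prime_dvd_prime_iff_eq hℓ hp).mp (hℓ.dvd_of_dvd_pow h))
    have hℓ'm : ¬ ℓ' ∣ p ^ (n + c) := fun h =>
      hℓ'p ((Nat.prime_dvd_prime_iff_eq hℓ' hp).mp (hℓ'.dvd_of_dvd_pow h))
    have hℓS' : ℓ ∉ (↑S : Set ℕ) := fun h => hℓS (Finset.mem_coe.mp h)
    have hℓ'S' : ℓ' ∉ (↑S : Set ℕ) := fun h => hℓ'S (Finset.mem_coe.mp h)
    -- the J-side
    have hJ : ∀ x : JZero N, p ^ (n + c) • x = 0 → τ ^ b • x = τ' ^ b' • x := by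
      intro x hx
      have e1 : τ ^ b • x = g • x :=
        h2 (τ ^ b) g (fun y hy => (hg y (hle12 (hle2 hy))).symm) x hx
      have e2 : τ' ^ b' • x = (σ * g) • x :=
        h2 (τ' ^ b') (σ * g) (fun y hy => (hg' y (hle12 (hle2 hy))).symm) x hx
      have e3 : σ • (g • x) = g • x :=
        Fermat.Agent.S29.FA_S29_ES_inertia_pow N hq p hqNp P hP σ hσ (g • x)
          ⟨n + c, Fermat.Agent.S29.FA_S29_ES_nsmul_smul N g _ x hx⟩
      rw [e1, e2, mul_smul, e3]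
    have hcyc0 := FA_S31_TC_cyc p (n + c) hℓ hℓ' hℓp hℓ'p A A' hA hA' τ τ' hτ hτ' b b' (by
      intro ζ hζ
      have hζL : ζ ∈ L := hle3 (h3 ζ hζ)
      have e1 : (τ ^ b) ζ = g ζ := (hg ζ hζL).symm
      have e2 : (τ' ^ b') ζ = (σ * g) ζ := (hg' ζ hζL).symm
      have hgζ : (g ζ) ^ p ^ (n + c) = 1 := by rw [← map_pow, hζ, map_one]
      have e3 : σ (g ζ) = g ζ :=
        Fermat.Agent.S30.FA_S30_CY_inertia_zeta p hq hqp P hP σ hσ (n + c) hgζ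
      rw [e1, e2, AlgEquiv.mul_apply, e3])
    have hcyc : ((p ^ (n + c) : ℕ) : ℤ) ∣ (ℓ : ℤ) ^ b - (ℓ' : ℤ) ^ b' := by
      push_cast; exact hcyc0
    have hcmp := fun x hx => FA_S31_TC_compare N hℓ hℓ' hℓN hℓ'N A A' hA hA' τ τ' hτ hτ'
      (p ^ (n + c)) hℓm hℓ'm b b' hJ hcyc x hx
    obtain ⟨t, ht⟩ := hc n ℓ ℓ' hℓ hℓN hℓS' hℓ' hℓ'N hℓ'S' (dickson 1 (ℓ : ℤ) b)
      (dickson 1 (ℓ' : ℤ) b') hcmp
    -- apply `π`
    have hπ : aeval (H.π (CuspForm.heckeAlgebra.T hℓ hℓN hℓS')) (dickson 1 (ℓ : ℤ) b) -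
        aeval (H.π (CuspForm.heckeAlgebra.T hℓ' hℓ'N hℓ'S')) (dickson 1 (ℓ' : ℤ) b') ∈
          maximalIdeal T ^ n := by
      have e := congrArg H.π ht
      rw [map_sub, map_zsmul] at e
      have a1 := Polynomial.aeval_algHom_apply H.π.toIntAlgHom
        (CuspForm.heckeAlgebra.T hℓ hℓN hℓS') (dickson 1 (ℓ : ℤ) b)
      have a2 := Polynomial.aeval_algHom_apply H.π.toIntAlgHom
        (CuspForm.heckeAlgebra.T hℓ' hℓ'N hℓ'S') (dickson 1 (ℓ' : ℤ) b')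
      simp only [RingHom.toIntAlgHom_apply] at a1 a2
      rw [a1, a2, e, zsmul_eq_mul, Int.cast_pow, Int.cast_natCast]
      exact Ideal.mul_mem_right _ _ (Ideal.pow_mem_pow hpT n)
    -- the traces
    have t1 : LinearMap.trace T H.ρ.V (H.ρ.ρ (τ ^ b)) =
        aeval (H.π (CuspForm.heckeAlgebra.T hℓ hℓN hℓS')) (dickson 1 (ℓ : ℤ) b) := by
      rw [map_pow]
      refine FA_S31_TR_trace_pow_int H.ρ.finrank_eq _ _ (ℓ : ℤ) ?_ b
      rw [H.charpoly_frob ℓ hℓ hℓN hℓS' A hA τ hτ, Int.cast_natCast]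
    have t2 : LinearMap.trace T H.ρ.V (H.ρ.ρ (τ' ^ b')) =
        aeval (H.π (CuspForm.heckeAlgebra.T hℓ' hℓ'N hℓ'S')) (dickson 1 (ℓ' : ℤ) b') := by
      rw [map_pow]
      refine FA_S31_TR_trace_pow_int H.ρ.finrank_eq _ _ (ℓ' : ℤ) ?_ b'
      rw [H.charpoly_frob ℓ' hℓ' hℓ'N hℓ'S' A' hA' τ' hτ', Int.cast_natCast]
    have c1 := FA_S31_AS_congr H.ρ n L₁ h1 g (τ ^ b) (fun x hx => hg x (hle12 (hle1 hx)))
    have c2 := FA_S31_AS_congr H.ρ n L₁ h1 (σ * g) (τ' ^ b')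
      (fun x hx => hg' x (hle12 (hle1 hx)))
    rw [t1] at c1
    rw [t2] at c2
    have : LinearMap.trace T H.ρ.V (H.ρ.ρ (σ * g)) - LinearMap.trace T H.ρ.V (H.ρ.ρ g) =
        (LinearMap.trace T H.ρ.V (H.ρ.ρ (σ * g)) -
          aeval (H.π (CuspForm.heckeAlgebra.T hℓ' hℓ'N hℓ'S')) (dickson 1 (ℓ' : ℤ) b'))
        - (aeval (H.π (CuspForm.heckeAlgebra.T hℓ hℓN hℓS')) (dickson 1 (ℓ : ℤ) b) -
          aeval (H.π (CuspForm.heckeAlgebra.T hℓ' hℓ'N hℓ'S')) (dickson 1 (ℓ' : ℤ) b'))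
        - (LinearMap.trace T H.ρ.V (H.ρ.ρ g) -
          aeval (H.π (CuspForm.heckeAlgebra.T hℓ hℓN hℓS')) (dickson 1 (ℓ : ℤ) b)) := by
      ring
    rw [this]
    exact Ideal.sub_mem _ (Ideal.sub_mem _ c2 hπ) c1
  have hmem : LinearMap.trace T H.ρ.V (H.ρ.ρ (σ * g)) -
      LinearMap.trace T H.ρ.V (H.ρ.ρ g) ∈ ⨅ n : ℕ, maximalIdeal T ^ n :=
    (Ideal.mem_iInf).mpr hK
  rw [Ideal.iInf_pow_eq_bot_of_isLocalRing _ (IsLocalRing.maximalIdeal.isMaximal T).ne_top] at hmem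
  exact sub_eq_zero.mp hmem

end main

end Fermat.Agent.S31
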