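import Fermat.Agent.S31.Sat
import Fermat.Agent.S29.EigSpan
import Fermat.Agent.S29.EigLat
import Fermat.Agent.S30.ThetaM

/-!
# S31, leaf C: the Hecke comparison between `J₀(N)[p ^ n]` and the Hecke algebra of cusp forms

* `FA_S31_HC_ker` : an element of the free algebra on the good primes acting as `0` on
  `H = parabolicHoms ℤ (Gamma0 N) ℤ` acts as `0` on the cusp forms (period map);
* `FA_S31_HC_theta` : `Θ` intertwines the actions on `H` and on `J₀(N)`;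
* `FA_S31_HC_free` : there is `c` such that an element `a` of the free algebra killing
  `J₀(N)[p ^ (n + c)]` is `p ^ n` times an element of the Hecke algebra, on cusp forms;
* `FA_S31_HC_main` : the polynomial form consumed by the assembly.
-/

set_option autoImplicit false
set_option linter.unusedSectionVars false
set_option linter.unusedVariables false
set_option linter.style.haveILetI false

noncomputable section

namespace Fermat.Agent.S31

open CuspForm ModularFormClass CongruenceSubgroup ModularCurve ModularCurve.Period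
  FA_S16 FA_S22 FA_S21 Fermat.Agent.S29 Fermat.Agent.S30
open scoped MatrixGroups

variable (N : ℕ) [NeZero N] (S : Set ℕ)

/-- The good primes outside `S`. -/
abbrev FA_S31_HC_idx : Type := {ℓ : Nat.Primes // ¬ (ℓ : ℕ) ∣ N ∧ (ℓ : ℕ) ∉ S}

/-- The Hecke operators on cusp forms. -/
def FA_S31_HC_TV (i : FA_S31_HC_idx N S) : Module.End ℂ (CuspForm (Gamma0 N) 2) :=
  heckeTLin 2 i.1.2 i.2.1

/-- The Hecke operators on `H`. -/
def FA_S31_HC_TH (i : FA_S31_HC_idx N S) : Module.End ℤ ↥(parabolicHoms ℤ (Gamma0 N) ℤ) :=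
  FA_S29_EIG_TH N i.1

/-- The Hecke operators on `J₀(N)`. -/
def FA_S31_HC_TJ (i : FA_S31_HC_idx N S) : Module.End ℤ (JZero N) :=
  heckeOperatorBar N i.1

/-- The Hecke operators on complex functions on `Γ₀(N)`. -/
def FA_S31_HC_TC (i : FA_S31_HC_idx N S) : Module.End ℤ (↥(Gamma0 N) → ℂ) :=
  (FA_S16_LS_hecke N ℂ i.1).toIntLinearMap

/-- The complex function of an integral parabolic homomorphism. -/
def FA_S31_HC_cast (ψ : ↥(parabolicHoms ℤ (Gamma0 N) ℤ)) : ↥(Gamma0 N) → ℂ :=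
  fun γ => (((ψ : Additive ↥(Gamma0 N) →+ ℤ) (Additive.ofMul γ) : ℤ) : ℂ)

theorem FA_S31_HC_cast_add (ψ ψ' : ↥(parabolicHoms ℤ (Gamma0 N) ℤ)) :
    FA_S31_HC_cast N (ψ + ψ') = FA_S31_HC_cast N ψ + FA_S31_HC_cast N ψ' := by
  funext γ
  simp only [FA_S31_HC_cast, Submodule.coe_add, AddMonoidHom.add_apply, Pi.add_apply]
  push_cast
  rfl

theorem FA_S31_HC_cast_zsmul (r : ℤ) (ψ : ↥(parabolicHoms ℤ (Gamma0 N) ℤ)) :
    FA_S31_HC_cast N (r • ψ) = r • FA_S31_HC_cast N ψ := by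
  funext γ
  simp only [FA_S31_HC_cast, Submodule.coe_smul, AddMonoidHom.coe_smul, Pi.smul_apply,
    smul_eq_mul]
  push_cast
  rw [zsmul_eq_mul]

theorem FA_S31_HC_cast_zero : FA_S31_HC_cast N 0 = 0 := by
  funext γ
  simp [FA_S31_HC_cast]

/-- Claim 1: the period map intertwines the actions on forms and on functions. -/
theorem FA_S31_HC_pm (a : FreeAlgebra ℤ (FA_S31_HC_idx N S)) :
    ∀ f : CuspForm (Gamma0 N) 2,
      FA_S16_LP_pm N (FreeAlgebra.lift ℤ (FA_S31_HC_TV N S) a f)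
        = FreeAlgebra.lift ℤ (FA_S31_HC_TC N S) a (FA_S16_LP_pm N f) := by
  induction a using FreeAlgebra.induction with
  | grade0 r =>
    intro f
    simp only [AlgHom.commutes, Module.algebraMap_end_apply]
    exact FA_S16_LS_pm_zsmul N r f
  | grade1 i =>
    intro f
    simp only [FreeAlgebra.lift_ι_apply]
    have h := FA_S16_LP_pm_hecke N i.1 f
    rw [heckeFormsGen_of_not_dvd i.2.1, heckeAlgebra.coe_T] at h
    exact h
  | mul a b ha hb =>
    intro f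
    simp only [map_mul, Module.End.mul_apply]
    rw [ha, hb]
  | add a b ha hb =>
    intro f
    simp only [map_add, LinearMap.add_apply]
    rw [FA_S16_LS_pm_add, ha, hb]

/-- Claim 2: `cast` intertwines the actions on `H` and on functions. -/
theorem FA_S31_HC_castH (a : FreeAlgebra ℤ (FA_S31_HC_idx N S)) :
    ∀ ψ : ↥(parabolicHoms ℤ (Gamma0 N) ℤ),
      FreeAlgebra.lift ℤ (FA_S31_HC_TC N S) a (FA_S31_HC_cast N ψ)
        = FA_S31_HC_cast N (FreeAlgebra.lift ℤ (FA_S31_HC_TH N S) a ψ) := by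
  induction a using FreeAlgebra.induction with
  | grade0 r =>
    intro ψ
    simp only [AlgHom.commutes, Module.algebraMap_end_apply]
    exact (FA_S31_HC_cast_zsmul N r ψ).symm
  | grade1 i =>
    intro ψ
    simp only [FreeAlgebra.lift_ι_apply]
    have h := FA_S29_EIG_hecke_natural (N := N) (Int.castAddHom ℂ) i.1
      (fun δ => (ψ : Additive ↥(Gamma0 N) →+ ℤ) (Additive.ofMul δ))
    exact h
  | mul a b ha hb =>
    intro ψ
    simp only [map_mul, Module.End.mul_apply]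
    rw [hb, ha]
  | add a b ha hb =>
    intro ψ
    simp only [map_add, LinearMap.add_apply]
    rw [ha, hb, FA_S31_HC_cast_add]

/-- Claim 3: the action on functions commutes with complex scalars. -/
theorem FA_S31_HC_smulC (a : FreeAlgebra ℤ (FA_S31_HC_idx N S)) :
    ∀ (z : ℂ) (c : ↥(Gamma0 N) → ℂ),
      FreeAlgebra.lift ℤ (FA_S31_HC_TC N S) a (fun γ => z * c γ)
        = fun γ => z * FreeAlgebra.lift ℤ (FA_S31_HC_TC N S) a c γ := by
  induction a using FreeAlgebra.induction with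
  | grade0 r =>
    intro z c
    simp only [AlgHom.commutes, Module.algebraMap_end_apply]
    funext γ
    simp only [Pi.smul_apply, zsmul_eq_mul]
    ring
  | grade1 i =>
    intro z c
    simp only [FreeAlgebra.lift_ι_apply]
    exact FA_S29_EIG_hecke_natural (N := N) (AddMonoidHom.mulLeft z) i.1 c
  | mul a b ha hb =>
    intro z c
    simp only [map_mul, Module.End.mul_apply]
    rw [hb, ha]
  | add a b ha hb =>
    intro z c
    simp only [map_add, LinearMap.add_apply]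
    rw [ha, hb]
    funext γ
    simp only [Pi.add_apply]
    ring

/-- **The kernel comparison.** -/
theorem FA_S31_HC_ker (a : FreeAlgebra ℤ (FA_S31_HC_idx N S))
    (ha : FreeAlgebra.lift ℤ (FA_S31_HC_TH N S) a = 0) :
    FreeAlgebra.lift ℤ (FA_S31_HC_TV N S) a = 0 := by
  classical
  refine LinearMap.ext fun f => ?_
  rw [LinearMap.zero_apply]
  by_contra hne
  apply FA_S29_EIG_pm_ne_zero hne
  rw [FA_S31_HC_pm]
  obtain ⟨v, hv⟩ := FA_S29_EIG_span N (periodMap N f) (FA_S21_periodMap_mem_parabolicHoms N f)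
  have e : FA_S16_LP_pm N f
      = ∑ j, (fun γ => v j * FA_S31_HC_cast N (FA_S29_EIG_basis N j) γ) := by
    funext γ
    rw [Finset.sum_apply]
    exact hv γ
  rw [e, map_sum]
  refine Finset.sum_eq_zero fun j _ => ?_
  rw [FA_S31_HC_smulC, FA_S31_HC_castH, ha, LinearMap.zero_apply, FA_S31_HC_cast_zero]
  funext γ
  simp

set_option maxHeartbeats 2000000 in
/-- `Θ` intertwines the actions on `H` and on `J₀(N)`. -/
theorem FA_S31_HC_theta (Θ : ↥(parabolicHoms ℤ (Gamma0 N) ℤ) →+ JZero N)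
    (hΘ : ∀ ℓ : Nat.Primes, ¬ (ℓ : ℕ) ∣ N →
      ∀ ψ, Θ (FA_S29_EIG_TH N ℓ ψ) = heckeOperatorBar N ℓ (Θ ψ))
    (a : FreeAlgebra ℤ (FA_S31_HC_idx N S)) :
    ∀ ψ, Θ (FreeAlgebra.lift ℤ (FA_S31_HC_TH N S) a ψ)
      = FreeAlgebra.lift ℤ (FA_S31_HC_TJ N S) a (Θ ψ) := by
  induction a using FreeAlgebra.induction with
  | grade0 r =>
    intro ψ
    have e1 : FreeAlgebra.lift ℤ (FA_S31_HC_TH N S) (algebraMap ℤ _ r) ψ = r • ψ := by
      rw [AlgHom.commutes, Module.algebraMap_end_apply]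
    have e2 : FreeAlgebra.lift ℤ (FA_S31_HC_TJ N S) (algebraMap ℤ _ r) (Θ ψ) = r • Θ ψ := by
      rw [AlgHom.commutes, Module.algebraMap_end_apply]
    rw [e1, e2]
    exact map_zsmul Θ r ψ
  | grade1 i =>
    intro ψ
    have e1 : FreeAlgebra.lift ℤ (FA_S31_HC_TH N S) (FreeAlgebra.ι ℤ i) ψ
        = FA_S29_EIG_TH N i.1 ψ := by
      rw [FreeAlgebra.lift_ι_apply]; rfl
    have e2 : FreeAlgebra.lift ℤ (FA_S31_HC_TJ N S) (FreeAlgebra.ι ℤ i) (Θ ψ)
        = heckeOperatorBar N i.1 (Θ ψ) := by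
      rw [FreeAlgebra.lift_ι_apply]; rfl
    rw [e1, e2]
    exact hΘ i.1 i.2.1 ψ
  | mul a b ha hb =>
    intro ψ
    have e1 : FreeAlgebra.lift ℤ (FA_S31_HC_TH N S) (a * b) ψ
        = FreeAlgebra.lift ℤ (FA_S31_HC_TH N S) a (FreeAlgebra.lift ℤ (FA_S31_HC_TH N S) b ψ) := by
      rw [map_mul]; rfl
    have e2 : FreeAlgebra.lift ℤ (FA_S31_HC_TJ N S) (a * b) (Θ ψ)
        = FreeAlgebra.lift ℤ (FA_S31_HC_TJ N S) a
            (FreeAlgebra.lift ℤ (FA_S31_HC_TJ N S) b (Θ ψ)) := by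
      rw [map_mul]; rfl
    rw [e1, e2, ha, hb]
  | add a b ha hb =>
    intro ψ
    have e1 : FreeAlgebra.lift ℤ (FA_S31_HC_TH N S) (a + b) ψ
        = FreeAlgebra.lift ℤ (FA_S31_HC_TH N S) a ψ
          + FreeAlgebra.lift ℤ (FA_S31_HC_TH N S) b ψ := by
      rw [map_add]; rfl
    have e2 : FreeAlgebra.lift ℤ (FA_S31_HC_TJ N S) (a + b) (Θ ψ)
        = FreeAlgebra.lift ℤ (FA_S31_HC_TJ N S) a (Θ ψ)
          + FreeAlgebra.lift ℤ (FA_S31_HC_TJ N S) b (Θ ψ) := by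
      rw [map_add]; rfl
    rw [e1, e2, ← ha, ← hb]
    exact map_add Θ _ _

theorem FA_S31_HC_mem (b : FreeAlgebra ℤ (FA_S31_HC_idx N S)) :
    FreeAlgebra.lift ℤ (FA_S31_HC_TV N S) b ∈ heckeAlgebra N 2 S := by
  induction b using FreeAlgebra.induction with
  | grade0 r =>
    rw [AlgHom.commutes]
    exact Subalgebra.algebraMap_mem _ r
  | grade1 i =>
    rw [FreeAlgebra.lift_ι_apply]
    exact heckeTLin_mem_heckeAlgebra i.1.2 i.2.1 i.2.2
  | mul a b ha hb =>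
    rw [map_mul]
    exact Subalgebra.mul_mem _ ha hb
  | add a b ha hb =>
    rw [map_add]
    exact Subalgebra.add_mem _ ha hb

instance FA_S31_HC_free_H : Module.Free ℤ ↥(parabolicHoms ℤ (Gamma0 N) ℤ) :=
  Module.Free.of_basis (FA_S29_EIG_basis N)

instance FA_S31_HC_finite_H : Module.Finite ℤ ↥(parabolicHoms ℤ (Gamma0 N) ℤ) :=
  Module.Finite.of_basis (FA_S29_EIG_basis N)

set_option maxHeartbeats 2000000 in
/-- **The Hecke comparison, free algebra form.** -/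
theorem FA_S31_HC_free (p : ℕ) (hp : p.Prime) :
    ∃ c : ℕ, ∀ (a : FreeAlgebra ℤ (FA_S31_HC_idx N S)) (n : ℕ),
      (∀ x : JZero N, p ^ (n + c) • x = 0 → FreeAlgebra.lift ℤ (FA_S31_HC_TJ N S) a x = 0) →
      ∃ t : heckeAlgebra N 2 S,
        FreeAlgebra.lift ℤ (FA_S31_HC_TV N S) a
          = ((p : ℤ) ^ n) • (t : Module.End ℂ (CuspForm (Gamma0 N) 2)) := by
  obtain ⟨c, hc⟩ := FA_S31_SAT_cmp (FA_S31_HC_TV N S) (FA_S31_HC_TH N S)
    (FA_S31_HC_ker N S) p hp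
  refine ⟨c, fun a n hJ => ?_⟩
  obtain ⟨Θ, hpΘ, hker, hhecke⟩ := FA_S30_theta N (p ^ (n + c)) (pow_pos hp.pos _)
  have hH : ∀ ψ : ↥(parabolicHoms ℤ (Gamma0 N) ℤ), ∃ y,
      FreeAlgebra.lift ℤ (FA_S31_HC_TH N S) a ψ = ((p : ℤ) ^ (n + c)) • y := by
    intro ψ
    have h1 : Θ (FreeAlgebra.lift ℤ (FA_S31_HC_TH N S) a ψ) = 0 := by
      rw [FA_S31_HC_theta N S Θ hhecke a ψ]
      apply hJ
      have := hpΘ ψ
      rw [natCast_zsmul] at this
      exact this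
    obtain ⟨ψ', hψ'⟩ := hker _ h1
    refine ⟨ψ', ?_⟩
    rw [hψ']
    push_cast
    rfl
  obtain ⟨b, hb⟩ := hc a n hH
  exact ⟨⟨_, FA_S31_HC_mem N S b⟩, hb⟩

set_option maxHeartbeats 2000000 in
/-- **The Hecke comparison, polynomial form.** -/
theorem FA_S31_HC_main (p : ℕ) (hp : p.Prime) :
    ∃ c : ℕ, ∀ (n : ℕ) (ℓ ℓ' : ℕ) (hℓ : ℓ.Prime) (hℓN : ¬ ℓ ∣ N) (hℓS : ℓ ∉ S)
      (hℓ' : ℓ'.Prime) (hℓN' : ¬ ℓ' ∣ N) (hℓS' : ℓ' ∉ S) (P P' : Polynomial ℤ),
      (∀ x : JZero N, p ^ (n + c) • x = 0 →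
        Polynomial.aeval (heckeOperatorBar N ⟨ℓ, hℓ⟩) P x
          = Polynomial.aeval (heckeOperatorBar N ⟨ℓ', hℓ'⟩) P' x) →
      ∃ t : heckeAlgebra N 2 S,
        Polynomial.aeval (heckeAlgebra.T hℓ hℓN hℓS : heckeAlgebra N 2 S) P
          - Polynomial.aeval (heckeAlgebra.T hℓ' hℓN' hℓS' : heckeAlgebra N 2 S) P'
          = ((p : ℤ) ^ n) • t := by
  obtain ⟨c, hc⟩ := FA_S31_HC_free N S p hp
  refine ⟨c, fun n ℓ ℓ' hℓ hℓN hℓS hℓ' hℓN' hℓS' P P' hJ => ?_⟩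
  let i : FA_S31_HC_idx N S := ⟨⟨ℓ, hℓ⟩, hℓN, hℓS⟩
  let i' : FA_S31_HC_idx N S := ⟨⟨ℓ', hℓ'⟩, hℓN', hℓS'⟩
  let a : FreeAlgebra ℤ (FA_S31_HC_idx N S) :=
    Polynomial.aeval (FreeAlgebra.ι ℤ i) P - Polynomial.aeval (FreeAlgebra.ι ℤ i') P'
  have haJ : FreeAlgebra.lift ℤ (FA_S31_HC_TJ N S) a
      = Polynomial.aeval (heckeOperatorBar N ⟨ℓ, hℓ⟩) P
        - Polynomial.aeval (heckeOperatorBar N ⟨ℓ', hℓ'⟩) P' := by
    show FreeAlgebra.lift ℤ (FA_S31_HC_TJ N S)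
      (Polynomial.aeval (FreeAlgebra.ι ℤ i) P - Polynomial.aeval (FreeAlgebra.ι ℤ i') P') = _
    rw [map_sub, ← Polynomial.aeval_algHom_apply, ← Polynomial.aeval_algHom_apply,
      FreeAlgebra.lift_ι_apply, FreeAlgebra.lift_ι_apply]
    rfl
  have haV : FreeAlgebra.lift ℤ (FA_S31_HC_TV N S) a
      = Polynomial.aeval (heckeTLin 2 hℓ hℓN : Module.End ℂ (CuspForm (Gamma0 N) 2)) P
        - Polynomial.aeval (heckeTLin 2 hℓ' hℓN' : Module.End ℂ (CuspForm (Gamma0 N) 2)) P' := by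
    show FreeAlgebra.lift ℤ (FA_S31_HC_TV N S)
      (Polynomial.aeval (FreeAlgebra.ι ℤ i) P - Polynomial.aeval (FreeAlgebra.ι ℤ i') P') = _
    rw [map_sub, ← Polynomial.aeval_algHom_apply, ← Polynomial.aeval_algHom_apply,
      FreeAlgebra.lift_ι_apply, FreeAlgebra.lift_ι_apply]
    rfl
  obtain ⟨t, ht⟩ := hc a n (fun x hx => by
    rw [haJ, LinearMap.sub_apply, hJ x hx, sub_self])
  refine ⟨t, ?_⟩
  apply Subtype.ext
  have hcoe : ∀ (u : heckeAlgebra N 2 S) (Q : Polynomial ℤ),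
      ((Polynomial.aeval u Q : heckeAlgebra N 2 S) : Module.End ℂ (CuspForm (Gamma0 N) 2))
        = Polynomial.aeval (u : Module.End ℂ (CuspForm (Gamma0 N) 2)) Q := by
    intro u Q
    exact (Polynomial.aeval_algHom_apply (heckeAlgebra N 2 S).val u Q).symm
  rw [Subalgebra.coe_sub, hcoe, hcoe, heckeAlgebra.coe_T, heckeAlgebra.coe_T, ← haV, ht]
  rfl

end Fermat.Agent.S31
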