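import Mathlib
import Fermat.Agent.S30.TorsLevel
import Fermat.Agent.S30.CycAdic
import Fermat.Agent.S30.QuadDens
import Fermat.Agent.S29.FrobMain
import Fermat.Agent.S29.ES
import Fermat.Prelude.Def_GaloisRep_Adic

/-!
# S31, leaf GS: the Galois side of the trace comparison

For an adic Galois representation `ρ` over a local ring `T`, a prime `q ∉ S` (`S ∋ p`, `S ⊇` primes
of `N`), an inertia element `σ` at `q`, an arbitrary `g` and levels `n`, `m`: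
there are Frobenius elements `τ` at `ℓ ∉ S`, `τ'` at `ℓ' ∉ S` and exponents `b`, `b'` with

* `ρ g ≡ ρ (τ ^ b)` and `ρ (σ g) ≡ ρ (τ' ^ b')` modulo `𝔪 ^ n`,
* `τ ^ b = g = τ' ^ b'` on `J₀(N)[p ^ m]` (also for the inverses),
* `ℓ ^ b ≡ ℓ' ^ b'` modulo `p ^ m`.

* `FA_S31_GS_sup` : a finite Galois field containing three number fields;
* `FA_S31_GS_congr` : the congruence form of adic continuity;
* `FA_S31_GS_main` : the statement above.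
-/

set_option autoImplicit false
set_option linter.style.haveILetI false
set_option linter.unusedSectionVars false
set_option linter.unusedVariables false

noncomputable section

namespace Fermat.Agent.S31

open ModularCurve AlgebraicCurve Fermat.Agent.S29 Fermat.Agent.S30 IsLocalRing

local notation "Qb" => AlgebraicClosure ℚ
local notation "Γ" => (AlgebraicClosure ℚ ≃ₐ[ℚ] AlgebraicClosure ℚ)

/-- A finite Galois subfield of `ℚ̄` containing three given number fields. -/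
theorem FA_S31_GS_sup (E₁ E₂ E₃ : IntermediateField ℚ Qb) (h₁ : FiniteDimensional ℚ E₁)
    (h₂ : FiniteDimensional ℚ E₂) (h₃ : FiniteDimensional ℚ E₃) :
    ∃ L : IntermediateField ℚ Qb, FiniteDimensional ℚ L ∧ IsGalois ℚ L ∧
      E₁ ≤ L ∧ E₂ ≤ L ∧ E₃ ≤ L := by
  haveI := h₁
  haveI := h₂
  haveI := h₃
  haveI : Algebra.IsAlgebraic ℚ Qb := AlgebraicClosure.isAlgebraic ℚ
  haveI : IsAlgClosure ℚ Qb := ⟨inferInstance, inferInstance⟩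
  haveI : Normal ℚ Qb := IsAlgClosure.normal ℚ Qb
  let E : IntermediateField ℚ Qb := E₁ ⊔ E₂ ⊔ E₃
  haveI : FiniteDimensional ℚ (↥(E₁ ⊔ E₂)) := IntermediateField.finiteDimensional_sup E₁ E₂
  haveI : FiniteDimensional ℚ E := IntermediateField.finiteDimensional_sup (E₁ ⊔ E₂) E₃
  let L : IntermediateField ℚ Qb := IntermediateField.normalClosure ℚ E Qb
  haveI : FiniteDimensional ℚ L := normalClosure.is_finiteDimensional ℚ E Qb
  haveI : Normal ℚ L := normalClosure.normal ℚ E Qb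
  have hEL : E ≤ L := IntermediateField.le_normalClosure E
  refine ⟨L, inferInstance, ⟨⟩, ?_, ?_, ?_⟩
  · exact le_trans (le_trans le_sup_left le_sup_left) hEL
  · exact le_trans (le_trans le_sup_right le_sup_left) hEL
  · exact le_trans le_sup_right hEL

/-- Congruence form of adic continuity: two Galois elements which agree on a suitable number
field have congruent images modulo `𝔪 ^ n`. -/
theorem FA_S31_GS_congr {T : Type} [CommRing T] [IsLocalRing T] (ρ : GaloisRepAdic T) (n : ℕ) :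
    ∃ E : IntermediateField ℚ Qb, FiniteDimensional ℚ E ∧
      ∀ g h : Γ, (∀ x ∈ E, g x = h x) →
        ∀ v : ρ.V, ρ.ρ g v - ρ.ρ h v ∈ (maximalIdeal T ^ n) • (⊤ : Submodule T ρ.V) := by
  obtain ⟨E, hE, hcont⟩ := ρ.isAdicContinuous n
  refine ⟨E, hE, fun g h hgh v => ?_⟩
  have hfix : ∀ x ∈ E, (h⁻¹ * g) x = x := by
    intro x hx
    show h⁻¹ (g x) = x
    rw [hgh x hx]
    exact h.symm_apply_apply x
  have h1 := hcont (h⁻¹ * g) hfix v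
  have h2 : ρ.ρ g v - ρ.ρ h v = ρ.ρ h (ρ.ρ (h⁻¹ * g) v - v) := by
    rw [map_sub, ← Module.End.mul_apply, ← map_mul, mul_inv_cancel_left]
  rw [h2]
  exact FA_S30_QD_map_fil (ρ.ρ h) n h1

/-- The Galois action on `J₀(N)` commutes with inverses on elements where two elements agree. -/
theorem FA_S31_GS_inv (N : ℕ) [NeZero N] (k : ℕ) (g h : Γ)
    (hgh : ∀ x : JZero N, k • x = 0 → h • x = g • x) (x : JZero N) (hx : k • x = 0) :
    h⁻¹ • x = g⁻¹ • x := by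
  have h1 : k • (g⁻¹ • x) = 0 := FA_S29_ES_nsmul_smul N g⁻¹ k x hx
  have h2 := hgh (g⁻¹ • x) h1
  rw [smul_inv_smul] at h2
  have h3 := congrArg (fun y => h⁻¹ • y) h2
  simp only [inv_smul_smul] at h3
  exact h3.symm

/-- **Leaf GS.**  The Galois side of the trace comparison for S31. -/
theorem FA_S31_GS_main (N : ℕ) [NeZero N] (p : ℕ) [hpF : Fact p.Prime]
    {T : Type} [CommRing T] [IsLocalRing T] (ρ : GaloisRepAdic T)
    (S : Finset ℕ) (hpS : p ∈ S) (hNS : ∀ q : ℕ, q.Prime → q ∣ N → q ∈ S)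
    (q : ℕ) (hq : q.Prime) (hqS : q ∉ S)
    (P : ValuationSubring Qb) (hP : P.LiesOverPrime q)
    (σ : Γ) (hσ : σ ∈ P.inertiaSubgroupIn ℚ) (g : Γ) (n m : ℕ) :
    ∃ (ℓ : ℕ) (A : ValuationSubring Qb) (τ : Γ) (b : ℕ)
      (ℓ' : ℕ) (A' : ValuationSubring Qb) (τ' : Γ) (b' : ℕ),
      (ℓ.Prime ∧ ℓ ∉ S ∧ A.LiesOverPrime ℓ ∧ A.IsFrobeniusAt τ ℓ) ∧
      (ℓ'.Prime ∧ ℓ' ∉ S ∧ A'.LiesOverPrime ℓ' ∧ A'.IsFrobeniusAt τ' ℓ') ∧
      (∀ v : ρ.V, ρ.ρ g v - ρ.ρ (τ ^ b) v ∈ (maximalIdeal T ^ n) • (⊤ : Submodule T ρ.V)) ∧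
      (∀ v : ρ.V, ρ.ρ (σ * g) v - ρ.ρ (τ' ^ b') v ∈
        (maximalIdeal T ^ n) • (⊤ : Submodule T ρ.V)) ∧
      (∀ x : JZero N, p ^ m • x = 0 →
        (τ ^ b) • x = g • x ∧ (τ' ^ b') • x = g • x ∧
        (τ ^ b)⁻¹ • x = g⁻¹ • x ∧ (τ' ^ b')⁻¹ • x = g⁻¹ • x ∧
        (ℓ ^ b) • x = (ℓ' ^ b') • x) ∧
      ((p : ℤ) ^ m ∣ (ℓ : ℤ) ^ b - (ℓ' : ℤ) ^ b') := by
  have hp : p.Prime := hpF.out
  have hqp : q ≠ p := fun h => hqS (h ▸ hpS)
  have hqN : ¬ q ∣ N := fun h => hqS (hNS q hq h)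
  obtain ⟨E₁, hE₁, h₁⟩ := FA_S31_GS_congr ρ n
  obtain ⟨E₂, hE₂, -, h₂⟩ := FA_S30_TL_congr_pow N p hp.pos m
  obtain ⟨E₃, hE₃, h₃⟩ := FA_S30_CY_chi_congr_field p m
  obtain ⟨L, hL, hG, h1L, h2L, h3L⟩ := FA_S31_GS_sup E₁ E₂ E₃ hE₁ hE₂ hE₃
  haveI := hL
  haveI := hG
  obtain ⟨ℓ, A, τ, b, hℓ, hℓS, hA, hτ, hg⟩ := FA_S29_FD_main L g S
  obtain ⟨ℓ', A', τ', b', hℓ', hℓ'S, hA', hτ', hg'⟩ := FA_S29_FD_main L (σ * g) S
  have hℓp : ℓ ≠ p := fun h => hℓS (h ▸ hpS)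
  have hℓ'p : ℓ' ≠ p := fun h => hℓ'S (h ▸ hpS)
  -- the action of `σ` on torsion
  have hσx : ∀ x : JZero N, p ^ m • x = 0 → σ • x = x := fun x hx =>
    FA_S29_ES_inertia N hq hqN P hP σ hσ (p ^ m)
      (fun hd => hqp ((Nat.prime_dvd_prime_iff_eq hq hp).mp (hq.dvd_of_dvd_pow hd))) x hx
  have hgx : ∀ x : JZero N, p ^ m • x = 0 → (τ ^ b) • x = g • x := fun x hx =>
    (h₂ g (τ ^ b) (fun y hy => hg y (h2L hy)) x hx).symm
  have hgx' : ∀ x : JZero N, p ^ m • x = 0 → (τ' ^ b') • x = g • x := fun x hx => by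
    have h := (h₂ (σ * g) (τ' ^ b') (fun y hy => hg' y (h2L hy)) x hx).symm
    rw [h, mul_smul]
    exact hσx _ (FA_S29_ES_nsmul_smul N g (p ^ m) x hx)
  -- the cyclotomic congruence
  have hχ : ((ℓ : ℤ_[p]) ^ b - (ℓ' : ℤ_[p]) ^ b') ∈ Ideal.span {(p : ℤ_[p]) ^ m} := by
    have c1 := h₃ g (τ ^ b) (fun y hy => hg y (h3L hy))
    have c2 := h₃ (σ * g) (τ' ^ b') (fun y hy => hg' y (h3L hy))
    rw [map_pow, Units.val_pow_eq_pow_val, FA_S30_CY_chi_frob p hℓ hℓp A hA τ hτ] at c1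
    rw [map_mul, FA_S30_CY_chi_inertia p hq hqp P hP σ hσ, one_mul, map_pow,
      Units.val_pow_eq_pow_val, FA_S30_CY_chi_frob p hℓ' hℓ'p A' hA' τ' hτ'] at c2
    have e : (ℓ : ℤ_[p]) ^ b - (ℓ' : ℤ_[p]) ^ b'
        = (((FA_S30_CY_chi p g : ℤ_[p]ˣ) : ℤ_[p]) - (ℓ' : ℤ_[p]) ^ b')
          - (((FA_S30_CY_chi p g : ℤ_[p]ˣ) : ℤ_[p]) - (ℓ : ℤ_[p]) ^ b) := by ring
    rw [e]
    exact Ideal.sub_mem _ c2 c1
  have hdvd : (p : ℤ) ^ m ∣ (ℓ : ℤ) ^ b - (ℓ' : ℤ) ^ b' := by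
    rw [Ideal.mem_span_singleton] at hχ
    have h := (PadicInt.pow_p_dvd_int_iff m ((ℓ : ℤ) ^ b - (ℓ' : ℤ) ^ b')).mp (by
      push_cast
      exact hχ)
    exact_mod_cast h
  refine ⟨ℓ, A, τ, b, ℓ', A', τ', b', ⟨hℓ, hℓS, hA, hτ⟩, ⟨hℓ', hℓ'S, hA', hτ'⟩,
    fun v => h₁ g (τ ^ b) (fun y hy => hg y (h1L hy)) v,
    fun v => h₁ (σ * g) (τ' ^ b') (fun y hy => hg' y (h1L hy)) v, fun x hx => ?_, hdvd⟩
  refine ⟨hgx x hx, hgx' x hx, FA_S31_GS_inv N (p ^ m) g (τ ^ b) hgx x hx,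
    FA_S31_GS_inv N (p ^ m) g (τ' ^ b') hgx' x hx, ?_⟩
  -- `ℓ ^ b • x = ℓ' ^ b' • x`
  obtain ⟨c, hc⟩ := hdvd
  have hz : ((ℓ : ℤ) ^ b) • x = ((ℓ' : ℤ) ^ b') • x := by
    have e : (ℓ : ℤ) ^ b = (ℓ' : ℤ) ^ b' + c * (p : ℤ) ^ m := by rw [mul_comm, ← hc]; ring
    have hpx : ((p : ℤ) ^ m) • x = 0 := by
      have h := hx
      rw [← natCast_zsmul] at h
      push_cast at h
      exact h
    rw [e, add_zsmul, mul_zsmul, hpx, zsmul_zero, add_zero]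
  have e1 : ((ℓ : ℤ) ^ b) • x = (ℓ ^ b) • x := by
    rw [← natCast_zsmul]; push_cast; rfl
  have e2 : ((ℓ' : ℤ) ^ b') • x = (ℓ' ^ b') • x := by
    rw [← natCast_zsmul]; push_cast; rfl
  rw [← e1, ← e2, hz]

end Fermat.Agent.S31

end
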