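import Mathlib

/-!
# S31, leaf S: saturation of an algebra of operators on a lattice (Mathlib only)

* `FA_S31_SAT_exponent` : for a subgroup `B` of a finitely generated abelian group `E`, the torsion
  of `E / B` has bounded exponent;
* `FA_S31_SAT_main` : for operators `TH i` on a finitely generated free abelian group `H` and a
  prime `p` there is `c` such that every element `a` of the free algebra whose operator maps `H`
  into `p ^ (k + c) H` is, as an operator, `p ^ k` times the operator of some `b`;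
* `FA_S31_SAT_cmp` : the same conclusion on a second representation `TV` whose kernel contains
  the kernel of `TH`.
-/

set_option autoImplicit false
set_option linter.unusedSectionVars false
set_option linter.style.haveILetI false
set_option linter.unusedVariables false

namespace Fermat.Agent.S31

/-- The torsion of `E / B` has bounded exponent. -/
theorem FA_S31_SAT_exponent {E : Type*} [AddCommGroup E] [Module.Finite ℤ E] (B : Submodule ℤ E) :
    ∃ e : ℕ, 0 < e ∧ ∀ x : E, (∃ m : ℕ, 0 < m ∧ m • x ∈ B) → e • x ∈ B := by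
  classical
  haveI : IsNoetherian ℤ (E ⧸ B) := inferInstance
  have hfg : (Submodule.torsion ℤ (E ⧸ B)).FG := IsNoetherian.noetherian _
  obtain ⟨s, hs⟩ := hfg
  have hs' : ∀ t ∈ s, ∃ n : ℕ, 0 < n ∧ n • t = 0 := by
    intro t ht
    have ht' : t ∈ Submodule.torsion ℤ (E ⧸ B) := hs ▸ Submodule.subset_span ht
    rw [Submodule.mem_torsion_iff] at ht'
    obtain ⟨a, ha⟩ := ht'
    have ha0 : (a : ℤ) ≠ 0 := nonZeroDivisors.coe_ne_zero a
    refine ⟨(a : ℤ).natAbs, Int.natAbs_pos.mpr ha0, ?_⟩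
    have h1 : ((a : ℤ).natAbs : ℤ) • t = 0 := by
      rcases Int.natAbs_eq (a : ℤ) with h | h
      · rw [← h]; exact ha
      · have h2 : (((a : ℤ).natAbs : ℤ)) = -(a : ℤ) := by omega
        rw [h2, neg_smul]
        have : (a : ℤ) • t = 0 := ha
        rw [this, neg_zero]
    rw [← natCast_zsmul]
    exact h1
  choose! n hn0 hn using hs'
  refine ⟨∏ t ∈ s, n t, Finset.prod_pos (fun t ht => hn0 t ht), ?_⟩
  have hkill : ∀ y ∈ Submodule.torsion ℤ (E ⧸ B), (∏ t ∈ s, n t) • y = 0 := by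
    intro y hy
    rw [← hs] at hy
    refine Submodule.span_induction ?_ ?_ ?_ ?_ hy
    · intro t ht
      obtain ⟨r, hr⟩ : n t ∣ ∏ t ∈ s, n t := Finset.dvd_prod_of_mem n ht
      rw [hr, mul_comm, mul_smul, hn t ht, smul_zero]
    · exact smul_zero _
    · intro x y _ _ hx hy
      rw [smul_add, hx, hy, add_zero]
    · intro a x _ hx
      rw [smul_comm, hx, smul_zero]
  intro x ⟨m, hm, hmx⟩
  have hx : (Submodule.Quotient.mk x : E ⧸ B) ∈ Submodule.torsion ℤ (E ⧸ B) := by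
    rw [Submodule.mem_torsion_iff]
    refine ⟨⟨(m : ℤ), mem_nonZeroDivisors_of_ne_zero (by exact_mod_cast hm.ne')⟩, ?_⟩
    show (m : ℤ) • (Submodule.Quotient.mk x : E ⧸ B) = 0
    rw [natCast_zsmul, ← Submodule.Quotient.mk_smul, Submodule.Quotient.mk_eq_zero]
    exact hmx
  have h := hkill _ hx
  rw [← Submodule.Quotient.mk_smul, Submodule.Quotient.mk_eq_zero] at h
  exact h

variable {ι H : Type*} [AddCommGroup H] [Module.Finite ℤ H] [Module.Free ℤ H]

/-- An endomorphism of a free abelian group with image in `m H` is divisible by `m`. -/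
theorem FA_S31_SAT_div (φ : Module.End ℤ H) (m : ℤ) (h : ∀ x : H, ∃ y : H, φ x = m • y) :
    ∃ φ' : Module.End ℤ H, φ = m • φ' := by
  classical
  let b := Module.Free.chooseBasis ℤ H
  choose y hy using h
  refine ⟨b.constr ℤ (fun i => y (b i)), ?_⟩
  apply b.ext
  intro i
  rw [LinearMap.smul_apply, Module.Basis.constr_basis, hy]

/-- **Saturation.** -/
theorem FA_S31_SAT_main (TH : ι → Module.End ℤ H) (p : ℕ) (hp : p.Prime) :
    ∃ c : ℕ, ∀ (a : FreeAlgebra ℤ ι) (k : ℕ),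
      (∀ x : H, ∃ y : H, FreeAlgebra.lift ℤ TH a x = ((p : ℤ) ^ (k + c)) • y) →
      ∃ b : FreeAlgebra ℤ ι,
        FreeAlgebra.lift ℤ TH a = ((p : ℤ) ^ k) • FreeAlgebra.lift ℤ TH b := by
  classical
  haveI : Module.Finite ℤ (Module.End ℤ H) := inferInstance
  let B : Submodule ℤ (Module.End ℤ H) := LinearMap.range (FreeAlgebra.lift ℤ TH).toLinearMap
  obtain ⟨e, he0, he⟩ := FA_S31_SAT_exponent B
  obtain ⟨c, e', he', hee'⟩ := Nat.exists_eq_pow_mul_and_not_dvd he0.ne' p hp.ne_one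
  refine ⟨c, fun a k h => ?_⟩
  obtain ⟨φ', hφ'⟩ := FA_S31_SAT_div (FreeAlgebra.lift ℤ TH a) _ h
  have hmem : (p ^ (k + c)) • φ' ∈ B := by
    refine ⟨a, ?_⟩
    rw [AlgHom.toLinearMap_apply, hφ', ← natCast_zsmul]
    push_cast
    rfl
  have h1 : e • φ' ∈ B := he φ' ⟨p ^ (k + c), pow_pos hp.pos _, hmem⟩
  obtain ⟨b₁, hb₁⟩ := h1
  rw [AlgHom.toLinearMap_apply] at hb₁
  -- `e' • lift a = p ^ k • lift b₁`
  have h2 : (e' : ℤ) • FreeAlgebra.lift ℤ TH a = ((p : ℤ) ^ k) • FreeAlgebra.lift ℤ TH b₁ := by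
    have hb₂ : FreeAlgebra.lift ℤ TH b₁ = (e : ℤ) • φ' := by
      rw [hb₁, natCast_zsmul]
    rw [hb₂, hφ', hee', smul_smul, smul_smul]
    congr 1
    push_cast
    ring
  have hcop : IsCoprime (e' : ℤ) ((p : ℤ) ^ k) := by
    apply IsCoprime.pow_right
    rw [Int.isCoprime_iff_gcd_eq_one, Int.gcd_natCast_natCast]
    exact (Nat.Coprime.symm ((Nat.Prime.coprime_iff_not_dvd hp).mpr he'))
  obtain ⟨u, v, huv⟩ := hcop
  refine ⟨u • b₁ + v • a, ?_⟩
  rw [map_add, map_smul, map_smul, smul_add, smul_comm ((p : ℤ) ^ k) u, ← h2, smul_smul,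
    smul_smul, ← add_smul, mul_comm ((p : ℤ) ^ k) v, huv, one_smul]

/-- **Saturation, transported to a second representation.** -/
theorem FA_S31_SAT_cmp {V : Type*} [AddCommGroup V] [Module ℂ V]
    (TV : ι → Module.End ℂ V) (TH : ι → Module.End ℤ H)
    (hker : ∀ a : FreeAlgebra ℤ ι, FreeAlgebra.lift ℤ TH a = 0 → FreeAlgebra.lift ℤ TV a = 0)
    (p : ℕ) (hp : p.Prime) :
    ∃ c : ℕ, ∀ (a : FreeAlgebra ℤ ι) (k : ℕ),
      (∀ x : H, ∃ y : H, FreeAlgebra.lift ℤ TH a x = ((p : ℤ) ^ (k + c)) • y) →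
      ∃ b : FreeAlgebra ℤ ι,
        FreeAlgebra.lift ℤ TV a = ((p : ℤ) ^ k) • FreeAlgebra.lift ℤ TV b := by
  obtain ⟨c, hc⟩ := FA_S31_SAT_main TH p hp
  refine ⟨c, fun a k h => ?_⟩
  obtain ⟨b, hb⟩ := hc a k h
  refine ⟨b, ?_⟩
  have h0 : FreeAlgebra.lift ℤ TH (a - ((p : ℤ) ^ k) • b) = 0 := by
    rw [map_sub, map_smul, hb, sub_self]
  have h1 := hker _ h0
  rw [map_sub, map_smul, sub_eq_zero] at h1
  exact h1

end Fermat.Agent.S31
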